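/-
Case II of Fermat's Last Theorem for a prime exponent `p ≠ 2`, in a cyclotomic field whose ring
of integers is a PID, assuming Kummer's lemma as a hypothesis (generic in `p`).

Main results (namespace `Fermat.Agent.S11.H81`):
* `no_solution`: the generalized equation `a ^ p + b ^ p = u * c ^ p` has no solution in `𝓞 K`
  with `λ ∤ a`, `λ ∤ b`, `a`, `b` coprime, `c ≠ 0`, `λ ∣ c` (where `λ = ζ - 1`).
* `caseII`: no integers `a ^ p + b ^ p = c ^ p` with `a`, `b` coprime, `c ≠ 0`, `p ∣ c`.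
* `caseII'`: no integers `a ^ p + b ^ p = c ^ p` with `a`, `b` coprime, `a * b * c ≠ 0`,
  `p ∣ a * b * c`.
-/
import Mathlib

set_option autoImplicit false

open NumberField Polynomial Finset

namespace Fermat.Agent.S11.H81

/-- In a PID, pairwise coprime factors of (a unit times) an `n`-th power are associated to
`n`-th powers. -/
lemma exists_associated_pow_of_prod {R : Type*} [CommRing R] [IsDomain R]
    [IsPrincipalIdealRing R] {ι : Type*} [DecidableEq ι]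
    {s : Finset ι} {g : ι → R} {u : Rˣ} {c : R} {n : ℕ}
    (hcop : ∀ i ∈ s, ∀ j ∈ s, i ≠ j → IsCoprime (g i) (g j))
    (hprod : ∏ i ∈ s, g i = u * c ^ n) {i : ι} (hi : i ∈ s) :
    ∃ ρ : R, Associated (ρ ^ n) (g i) := by
  have h1 : IsCoprime (g i) (∏ j ∈ s.erase i, g j) :=
    IsCoprime.prod_right fun j hj =>
      hcop i hi j (Finset.mem_of_mem_erase hj) (Finset.ne_of_mem_erase hj).symm
  have h2 : Associated (c ^ n) (g i * ∏ j ∈ s.erase i, g j) := by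
    rw [Finset.mul_prod_erase s g hi, hprod]
    exact ⟨u, mul_comm _ _⟩
  exact exists_associated_pow_of_associated_pow_mul h1 h2

section
variable {p : ℕ} [hp : Fact p.Prime] {K : Type} [Field K] [NumberField K]
  [IsCyclotomicExtension {p} ℚ K] {ζ : K} (hζ : IsPrimitiveRoot ζ p)

include hζ

omit [NumberField K] [IsCyclotomicExtension {p} ℚ K] in
/-- `p` divides `(ζ - 1) ^ p`. -/
lemma natCast_dvd_lam_pow : (p : 𝓞 K) ∣ (hζ.toInteger - 1) ^ p :=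
  (IsCyclotomicExtension.Rat.associated_zeta_sub_one_pow_prime p hζ).symm.dvd.trans
    (pow_dvd_pow _ (Nat.sub_le p 1))

/-- Every element of `𝓞 K` has its `p`-th power congruent to a rational integer modulo `p`. -/
lemma exists_int_dvd_pow_sub (x : 𝓞 K) : ∃ n : ℤ, (p : 𝓞 K) ∣ x ^ p - (n : 𝓞 K) := by
  have htop : Algebra.adjoin ℤ {hζ.toInteger} = ⊤ := by
    rw [← hζ.integralPowerBasis_gen]
    exact hζ.integralPowerBasis.adjoin_gen_eq_top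
  have hx : x ∈ Algebra.adjoin ℤ {hζ.toInteger} := by rw [htop]; trivial
  induction hx using Algebra.adjoin_induction with
  | mem y hy =>
    rw [Set.mem_singleton_iff] at hy
    subst hy
    refine ⟨1, ?_⟩
    rw [hζ.toInteger_isPrimitiveRoot.pow_eq_one]
    simp
  | algebraMap r =>
    refine ⟨r ^ p, ?_⟩
    simp
  | add y z _ _ hy hz =>
    obtain ⟨m, hm⟩ := hy
    obtain ⟨n, hn⟩ := hz
    refine ⟨m + n, ?_⟩
    have h := add_pow_prime_eq hp.out y z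
    have : (y + z) ^ p - ((m + n : ℤ) : 𝓞 K) = (y ^ p - m) + (z ^ p - n) +
        (p : 𝓞 K) * (y * z * ∑ k ∈ Ioo 0 p, y ^ (k - 1) * z ^ (p - k - 1) *
          ((p.choose k / p : ℕ) : 𝓞 K)) := by
      rw [h]; push_cast; ring
    rw [this]
    exact dvd_add (dvd_add hm hn) (dvd_mul_right _ _)
  | mul y z _ _ hy hz =>
    obtain ⟨m, hm⟩ := hy
    obtain ⟨n, hn⟩ := hz
    refine ⟨m * n, ?_⟩
    have : (y * z) ^ p - ((m * n : ℤ) : 𝓞 K) = (y ^ p - m) * z ^ p + m * (z ^ p - n) := by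
      push_cast; ring
    rw [this]
    exact dvd_add (dvd_mul_of_dvd_left hm _) (dvd_mul_of_dvd_right hn _)

/-- If `λ ∣ c` and `a ^ p + b ^ p = u * c ^ p`, then `λ` divides every factor `a + η * b`. -/
lemma lam_dvd_add_mul (hodd : p ≠ 2) {a b c : 𝓞 K} {u : (𝓞 K)ˣ}
    (H : a ^ p + b ^ p = u * c ^ p) (hc : hζ.toInteger - 1 ∣ c)
    {η : 𝓞 K} (hη : η ∈ nthRootsFinset p (1 : 𝓞 K)) : hζ.toInteger - 1 ∣ a + η * b := by
  have hz := hζ.toInteger_isPrimitiveRoot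
  have hpodd : Odd p := hp.out.odd_of_ne_two hodd
  have hprod := hz.pow_add_pow_eq_prod_add_mul a b hpodd
  have hdvd : hζ.toInteger - 1 ∣ ∏ η ∈ nthRootsFinset p (1 : 𝓞 K), (a + η * b) := by
    rw [← hprod, H]
    exact dvd_mul_of_dvd_right (dvd_pow hc hp.out.ne_zero) _
  obtain ⟨η₀, hη₀, h₀⟩ := hζ.zeta_sub_one_prime'.exists_mem_finset_dvd hdvd
  have h1 : hζ.toInteger - 1 ∣ η - η₀ := hz.sub_one_dvd_sub hp.out hη hη₀
  have : a + η * b = (a + η₀ * b) + (η - η₀) * b := by ring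
  rw [this]
  exact dvd_add h₀ (dvd_mul_of_dvd_left h1 _)

/-- The quotient `𝓞 K ⧸ (λ)` has `p` elements. -/
lemma card_quot_lam : Nat.card (𝓞 K ⧸ Ideal.span {hζ.toInteger - 1}) = p := by
  have hK : IsCyclotomicExtension {p ^ (0 + 1)} ℚ K := by
    simpa using ‹IsCyclotomicExtension {p} ℚ K›
  have hζ' : IsPrimitiveRoot ζ (p ^ (0 + 1)) := by simpa using hζ
  have := IsCyclotomicExtension.Rat.absNorm_span_zeta_sub_one p 0 hζ'
  rw [Ideal.absNorm_apply, Submodule.cardQuot_apply] at this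
  exact this

/-- Pigeonhole: one of the factors `a + η * b` is divisible by `λ ^ 2`. -/
lemma exists_lam_sq_dvd {a b : 𝓞 K}
    (hall : ∀ η ∈ nthRootsFinset p (1 : 𝓞 K), hζ.toInteger - 1 ∣ a + η * b)
    (hb : ¬ hζ.toInteger - 1 ∣ b) :
    ∃ η ∈ nthRootsFinset p (1 : 𝓞 K), (hζ.toInteger - 1) ^ 2 ∣ a + η * b := by
  classical
  have hz := hζ.toInteger_isPrimitiveRoot
  have hl := hζ.zeta_sub_one_prime'
  choose! g hg using hall
  let φ : (nthRootsFinset p (1 : 𝓞 K)) → 𝓞 K ⧸ Ideal.span {hζ.toInteger - 1} :=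
    fun η => Ideal.Quotient.mk _ (g η)
  have hinj : Function.Injective φ := by
    intro η₁ η₂ h
    by_contra hne
    have hne' : (η₁ : 𝓞 K) ≠ η₂ := fun h' => hne (Subtype.ext h')
    obtain ⟨w, hw⟩ := hz.nthRootsFinset_pairwise_associated_sub_one_sub_of_prime hp.out
      η₁.2 η₂.2 hne'
    have h1 : hζ.toInteger - 1 ∣ g η₁ - g η₂ := by
      rw [← Ideal.mem_span_singleton, ← Ideal.Quotient.eq]
      exact h
    have h2 : (hζ.toInteger - 1) * (g η₁ - g η₂) = (hζ.toInteger - 1) * (w * b) := by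
      rw [mul_sub, ← hg _ η₁.2, ← hg _ η₂.2, ← mul_assoc, hw]
      ring
    have h3 : g η₁ - g η₂ = w * b := mul_left_cancel₀ hl.ne_zero h2
    rw [h3] at h1
    exact hb ((Units.dvd_mul_left).1 h1)
  have hfin : Finite (𝓞 K ⧸ Ideal.span {hζ.toInteger - 1}) :=
    Nat.finite_of_card_ne_zero (by rw [card_quot_lam hζ]; exact hp.out.ne_zero)
  have hbij : Function.Bijective φ := by
    apply hinj.bijective_of_nat_card_le
    rw [card_quot_lam hζ, Nat.card_eq_fintype_card, Fintype.card_coe, hz.card_nthRootsFinset]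
  obtain ⟨η₀, hη₀⟩ := hbij.2 0
  refine ⟨η₀, η₀.2, ?_⟩
  have h1 : hζ.toInteger - 1 ∣ g η₀ := by
    rw [← Ideal.mem_span_singleton, ← Ideal.Quotient.eq_zero_iff_mem]
    exact hη₀
  rw [hg _ η₀.2, pow_two]
  exact mul_dvd_mul_left _ h1

/-- The cofactors `(a + η₁ b)/λ` and `(a + η₂ b)/λ` are coprime for distinct `p`-th roots of
unity `η₁`, `η₂`, when `a` and `b` are coprime. -/
lemma isCoprime_quot {a b g₁ g₂ η₁ η₂ : 𝓞 K} (hab : IsCoprime a b)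
    (hη₁ : η₁ ∈ nthRootsFinset p (1 : 𝓞 K)) (hη₂ : η₂ ∈ nthRootsFinset p (1 : 𝓞 K))
    (hne : η₁ ≠ η₂)
    (h₁ : a + η₁ * b = (hζ.toInteger - 1) * g₁) (h₂ : a + η₂ * b = (hζ.toInteger - 1) * g₂) :
    IsCoprime g₁ g₂ := by
  have hz := hζ.toInteger_isPrimitiveRoot
  have hl := hζ.zeta_sub_one_prime'
  obtain ⟨w, hw⟩ := hz.nthRootsFinset_pairwise_associated_sub_one_sub_of_prime hp.out
    hη₁ hη₂ hne
  have e1 : g₁ - g₂ = w * b :=
    mul_left_cancel₀ hl.ne_zero (by linear_combination (-1) * h₁ + h₂ - b * hw)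
  have e2 : η₂ * g₁ - η₁ * g₂ = -(w * a) :=
    mul_left_cancel₀ hl.ne_zero (by linear_combination (-η₂) * h₁ + η₁ * h₂ + a * hw)
  obtain ⟨r, s, hrs⟩ := hab
  refine ⟨↑w⁻¹ * (s - r * η₂), ↑w⁻¹ * (r * η₁ - s), ?_⟩
  calc (↑w⁻¹ : 𝓞 K) * (s - r * η₂) * g₁ + ↑w⁻¹ * (r * η₁ - s) * g₂
      = ↑w⁻¹ * (s * (g₁ - g₂) - r * (η₂ * g₁ - η₁ * g₂)) := by ring
    _ = ↑w⁻¹ * (s * (w * b) - r * (-(w * a))) := by rw [e1, e2]
    _ = (↑w⁻¹ * w) * (r * a + s * b) := by ring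
    _ = 1 := by rw [hrs]; simp


/-- The descent step: from a solution with `λ ^ 2 ∣ a + b` we construct a solution with a
strictly smaller `c` (for the strict divisibility order). -/
lemma descent_step (hodd : p ≠ 2) [IsPrincipalIdealRing (𝓞 K)]
    (kummer : ∀ (u : (𝓞 K)ˣ) (n : ℤ), (p : 𝓞 K) ∣ (u : 𝓞 K) - (n : 𝓞 K) →
      ∃ v : (𝓞 K)ˣ, u = v ^ p)
    {a b c : 𝓞 K} {u : (𝓞 K)ˣ} (hc : c ≠ 0) (hab : IsCoprime a b)
    (hcdvd : hζ.toInteger - 1 ∣ c) (H : a ^ p + b ^ p = u * c ^ p)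
    (hab2 : (hζ.toInteger - 1) ^ 2 ∣ a + b) :
    ∃ (a' b' c' : 𝓞 K) (u' : (𝓞 K)ˣ), ¬ hζ.toInteger - 1 ∣ a' ∧ ¬ hζ.toInteger - 1 ∣ b' ∧
      c' ≠ 0 ∧ IsCoprime a' b' ∧ hζ.toInteger - 1 ∣ c' ∧ a' ^ p + b' ^ p = u' * c' ^ p ∧
      DvdNotUnit c' c := by
  classical
  have hz := hζ.toInteger_isPrimitiveRoot
  have hl := hζ.zeta_sub_one_prime'
  have hp0 : p ≠ 0 := hp.out.ne_zero
  have hpodd : Odd p := hp.out.odd_of_ne_two hodd
  have hp3 : 3 ≤ p := by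
    have := hp.out.two_le
    omega
  -- the factors
  have hall : ∀ η ∈ nthRootsFinset p (1 : 𝓞 K), hζ.toInteger - 1 ∣ a + η * b :=
    fun η hη => lam_dvd_add_mul hζ hodd H hcdvd hη
  choose! g hg using hall
  obtain ⟨c₁, rfl⟩ := hcdvd
  -- the product of the cofactors
  have hprod : ∏ η ∈ nthRootsFinset p (1 : 𝓞 K), g η = u * c₁ ^ p := by
    have h1 := hz.pow_add_pow_eq_prod_add_mul a b hpodd
    have h2 : ∏ η ∈ nthRootsFinset p (1 : 𝓞 K), (a + η * b) =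
        (hζ.toInteger - 1) ^ p * ∏ η ∈ nthRootsFinset p (1 : 𝓞 K), g η := by
      rw [Finset.prod_congr rfl hg, Finset.prod_mul_distrib, Finset.prod_const,
        hz.card_nthRootsFinset]
    have h3 : (hζ.toInteger - 1) ^ p * ∏ η ∈ nthRootsFinset p (1 : 𝓞 K), g η =
        (hζ.toInteger - 1) ^ p * (u * c₁ ^ p) := by
      rw [← h2, ← h1, H, mul_pow]; ring
    exact mul_left_cancel₀ (pow_ne_zero p hl.ne_zero) h3
  have hcop : ∀ η₁ ∈ nthRootsFinset p (1 : 𝓞 K), ∀ η₂ ∈ nthRootsFinset p (1 : 𝓞 K),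
      η₁ ≠ η₂ → IsCoprime (g η₁) (g η₂) :=
    fun η₁ h₁ η₂ h₂ hne => isCoprime_quot hζ hab h₁ h₂ hne (hg η₁ h₁) (hg η₂ h₂)
  -- the three roots of unity `1`, `ζ`, `ζ⁻¹`
  set z : 𝓞 K := hζ.toInteger with hzdef
  set z' : 𝓞 K := z ^ (p - 1) with hz'def
  have hzz' : z * z' = 1 := by
    rw [hz'def, ← pow_succ', Nat.sub_add_cancel hp.out.one_le, hz.pow_eq_one]
  have h1mem : (1 : 𝓞 K) ∈ nthRootsFinset p (1 : 𝓞 K) :=
    (mem_nthRootsFinset hp.out.pos 1).2 (one_pow p)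
  have hzmem : z ∈ nthRootsFinset p (1 : 𝓞 K) :=
    (mem_nthRootsFinset hp.out.pos 1).2 hz.pow_eq_one
  have hz'mem : z' ∈ nthRootsFinset p (1 : 𝓞 K) := by
    refine (mem_nthRootsFinset hp.out.pos 1).2 ?_
    rw [hz'def, ← pow_mul, mul_comm, pow_mul, hz.pow_eq_one, one_pow]
  have hz1 : z ≠ 1 := hz.ne_one hp.out.one_lt
  have hz'1 : z' ≠ 1 := by
    intro h
    rw [h, mul_one] at hzz'
    exact hz1 hzz'
  have hzz'ne : z ≠ z' := by
    intro h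
    have h2 : z ^ 2 = 1 := by rw [pow_two]; nth_rewrite 2 [h]; exact hzz'
    have h3 : p ∣ 2 := (hz.pow_eq_one_iff_dvd 2).1 h2
    have := Nat.le_of_dvd (by norm_num) h3
    omega
  have hg1 := hg 1 h1mem
  have hgz := hg z hzmem
  have hgz' := hg z' hz'mem
  -- `λ ∣ g 1`, `λ ∤ g ζ`, `λ ∤ g ζ⁻¹`
  have hlg1 : z - 1 ∣ g 1 := by
    obtain ⟨t, ht⟩ := hab2
    refine ⟨t, mul_left_cancel₀ hl.ne_zero ?_⟩
    rw [← hg1, one_mul, ht]; ring
  have hlgz : ¬ z - 1 ∣ g z := fun h =>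
    hl.not_isUnit ((hcop 1 h1mem z hzmem hz1.symm).isUnit_of_dvd' hlg1 h)
  have hlgz' : ¬ z - 1 ∣ g z' := fun h =>
    hl.not_isUnit ((hcop 1 h1mem z' hz'mem hz'1.symm).isUnit_of_dvd' hlg1 h)
  -- the cofactors are `p`-th powers up to units
  obtain ⟨ρ₀, e₀, he₀⟩ := exists_associated_pow_of_prod hcop hprod h1mem
  obtain ⟨ρ₁, e₁, he₁⟩ := exists_associated_pow_of_prod hcop hprod hzmem
  obtain ⟨ρ₂, e₂, he₂⟩ := exists_associated_pow_of_prod hcop hprod hz'mem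
  -- the three-term relation
  have hrel : z * g z' + g z = (1 + z) * g 1 :=
    mul_left_cancel₀ hl.ne_zero
      (by linear_combination (-z) * hgz' - hgz + (1 + z) * hg1 + b * hzz')
  -- the units `ζ` and `1 + ζ`
  have hzu : IsUnit z := hz.isUnit hp0
  have h1zu : IsUnit (1 + z) := by
    have h := hz.geom_sum_isUnit hp.out.two_le
      ((Nat.coprime_primes Nat.prime_two hp.out).2 (Ne.symm hodd))
    simpa [Finset.sum_range_succ] using h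
  set U : (𝓞 K)ˣ := hzu.unit * e₂ * e₁⁻¹ with hUdef
  set U' : (𝓞 K)ˣ := h1zu.unit * e₀ * e₁⁻¹ with hU'def
  have hrel' : ρ₁ ^ p + U * ρ₂ ^ p = U' * ρ₀ ^ p := by
    have hinv : (e₁ : 𝓞 K) * (↑e₁⁻¹ : 𝓞 K) = 1 := by simp
    rw [← he₀, ← he₁, ← he₂] at hrel
    simp only [hUdef, hU'def, Units.val_mul, IsUnit.unit_spec]
    linear_combination (↑e₁⁻¹ : 𝓞 K) * hrel - (ρ₁ ^ p) * hinv
  -- `λ ∣ ρ₀`, `λ ∤ ρ₁`, `λ ∤ ρ₂`
  have hlρ₀ : z - 1 ∣ ρ₀ := by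
    rw [← he₀] at hlg1
    exact hl.dvd_of_dvd_pow ((Units.dvd_mul_right).1 hlg1)
  have hlρ₁ : ¬ z - 1 ∣ ρ₁ := fun h => hlgz (by
    rw [← he₁]; exact dvd_mul_of_dvd_left (dvd_pow h hp0) _)
  have hlρ₂ : ¬ z - 1 ∣ ρ₂ := fun h => hlgz' (by
    rw [← he₂]; exact dvd_mul_of_dvd_left (dvd_pow h hp0) _)
  -- `U` is congruent to an integer modulo `p`
  have hpρ₀ : (p : 𝓞 K) ∣ ρ₀ ^ p :=
    (natCast_dvd_lam_pow hζ).trans (pow_dvd_pow_of_dvd hlρ₀ p)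
  obtain ⟨n₁, hn₁⟩ := exists_int_dvd_pow_sub hζ ρ₁
  obtain ⟨n₂, hn₂⟩ := exists_int_dvd_pow_sub hζ ρ₂
  have hsum : (p : 𝓞 K) ∣ (n₁ : 𝓞 K) + U * n₂ := by
    have : (n₁ : 𝓞 K) + U * n₂ = U' * ρ₀ ^ p - (ρ₁ ^ p - n₁) - U * (ρ₂ ^ p - n₂) := by
      rw [← hrel']; ring
    rw [this]
    exact dvd_sub (dvd_sub (dvd_mul_of_dvd_right hpρ₀ _) hn₁) (dvd_mul_of_dvd_right hn₂ _)
  have hpn₂ : ¬ (p : ℤ) ∣ n₂ := by
    intro h
    have h1 : (p : 𝓞 K) ∣ (n₂ : 𝓞 K) := by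
      obtain ⟨k, hk⟩ := h
      exact ⟨(k : 𝓞 K), by rw [hk]; push_cast; ring⟩
    have h2 : (p : 𝓞 K) ∣ ρ₂ ^ p := by
      have := dvd_add hn₂ h1
      rwa [sub_add_cancel] at this
    exact hlρ₂ (hl.dvd_of_dvd_pow (hζ.toInteger_sub_one_dvd_prime'.trans h2))
  obtain ⟨k, l, hkl⟩ : IsCoprime (p : ℤ) n₂ :=
    (Nat.prime_iff_prime_int.mp hp.out).coprime_iff_not_dvd.2 hpn₂
  have hkum : (p : 𝓞 K) ∣ (U : 𝓞 K) - ((-(l * n₁) : ℤ) : 𝓞 K) := by
    have hkl' : (k : 𝓞 K) * p + l * n₂ = 1 := by exact_mod_cast congrArg (Int.cast : ℤ → 𝓞 K) hkl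
    have : (U : 𝓞 K) - ((-(l * n₁) : ℤ) : 𝓞 K) =
        (p : 𝓞 K) * (U * k) + l * ((n₁ : 𝓞 K) + U * n₂) := by
      push_cast
      linear_combination (-(U : 𝓞 K)) * hkl'
    rw [this]
    exact dvd_add (dvd_mul_right _ _) (dvd_mul_of_dvd_right hsum _)
  obtain ⟨v, hv⟩ := kummer U _ hkum
  -- the new solution
  have hρ₀ : ρ₀ ≠ 0 := by
    rintro rfl
    rw [zero_pow hp0, zero_mul] at he₀
    have h0 : ∏ η ∈ nthRootsFinset p (1 : 𝓞 K), g η = 0 :=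
      Finset.prod_eq_zero h1mem he₀.symm
    rw [hprod] at h0
    have hc₁ : c₁ = 0 := by
      have := (mul_eq_zero.1 h0).resolve_left u.ne_zero
      exact pow_eq_zero_iff hp0 |>.1 this
    exact hc (by rw [hc₁, mul_zero])
  refine ⟨ρ₁, v * ρ₂, ρ₀, U', hlρ₁, ?_, hρ₀, ?_, hlρ₀, ?_, hρ₀, ?_⟩
  · exact fun h => hlρ₂ ((Units.dvd_mul_left).1 h)
  · have h1 : IsCoprime (ρ₁ ^ p * e₁) (ρ₂ ^ p * e₂) := by
      rw [he₁, he₂]; exact hcop z hzmem z' hz'mem hzz'ne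
    have h2 : IsCoprime (ρ₁ ^ p) (ρ₂ ^ p) :=
      (IsCoprime.of_mul_left_left h1).of_mul_right_left
    have h3 : IsCoprime ρ₁ ρ₂ := (IsCoprime.pow_iff hp.out.pos hp.out.pos).1 h2
    exact (isCoprime_mul_unit_left_right v.isUnit _ _).2 h3
  · rw [mul_pow, ← Units.val_pow_eq_pow_val, ← hv]
    exact hrel'
  · -- `ρ₀ ∣ c₁`
    have h1 : ρ₀ ^ p ∣ u * c₁ ^ p := by
      rw [← hprod]
      exact (Dvd.intro _ he₀).trans (Finset.dvd_prod_of_mem g h1mem)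
    have h2 : ρ₀ ^ p ∣ c₁ ^ p := (Units.dvd_mul_left).1 h1
    obtain ⟨t, ht⟩ := (IsIntegrallyClosed.pow_dvd_pow_iff hp0).1 h2
    refine ⟨(z - 1) * t, fun hu => hl.not_isUnit (isUnit_of_mul_isUnit_left hu), ?_⟩
    rw [ht]; ring


/-- The generalized Fermat equation `a ^ p + b ^ p = u * c ^ p` has no solution in `𝓞 K` with
`λ ∤ a`, `λ ∤ b`, `a` and `b` coprime, `c ≠ 0` and `λ ∣ c`, provided `𝓞 K` is a PID and Kummer's
lemma holds. -/
theorem no_solution (hodd : p ≠ 2) [IsPrincipalIdealRing (𝓞 K)]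
    (kummer : ∀ (u : (𝓞 K)ˣ) (n : ℤ), (p : 𝓞 K) ∣ (u : 𝓞 K) - (n : 𝓞 K) →
      ∃ v : (𝓞 K)ˣ, u = v ^ p) :
    ∀ c : 𝓞 K, c ≠ 0 → ∀ (a b : 𝓞 K) (u : (𝓞 K)ˣ), ¬ hζ.toInteger - 1 ∣ a →
      ¬ hζ.toInteger - 1 ∣ b → IsCoprime a b → hζ.toInteger - 1 ∣ c →
      a ^ p + b ^ p ≠ u * c ^ p := by
  intro c
  have hwf : WellFounded (DvdNotUnit (α := 𝓞 K)) := wellFounded_dvdNotUnit
  induction c using hwf.induction with
  | _ c ih =>
    intro hc a b u _ hb hab hcdvd H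
    obtain ⟨η₀, hη₀, h2⟩ :=
      exists_lam_sq_dvd hζ (fun η hη => lam_dvd_add_mul hζ hodd H hcdvd hη) hb
    have hη₀p : η₀ ^ p = 1 := (mem_nthRootsFinset hp.out.pos 1).1 hη₀
    have hη₀u : IsUnit η₀ := IsUnit.of_pow_eq_one hη₀p hp.out.ne_zero
    have H' : a ^ p + (η₀ * b) ^ p = u * c ^ p := by rw [mul_pow, hη₀p, one_mul, H]
    have hab' : IsCoprime a (η₀ * b) := (isCoprime_mul_unit_left_right hη₀u _ _).2 hab
    obtain ⟨a', b', c', u', ha', hb', hc', hab'', hcdvd', H'', hlt⟩ :=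
      descent_step hζ hodd kummer hc hab' hcdvd H' h2
    exact ih c' hlt hc' a' b' u' ha' hb' hab'' hcdvd' H''

end

/-- **Case II** of Fermat's Last Theorem for an odd prime exponent `p` such that the ring of
integers of the `p`-th cyclotomic field is a PID and satisfies Kummer's lemma: there are no
coprime integers `a`, `b` and `c ≠ 0` divisible by `p` with `a ^ p + b ^ p = c ^ p`. -/
theorem caseII_of_ne_two {p : ℕ} [hp : Fact p.Prime] (hodd : p ≠ 2) (K : Type) [Field K]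
    [NumberField K] [IsCyclotomicExtension {p} ℚ K] [IsPrincipalIdealRing (𝓞 K)]
    (kummer : ∀ (u : (𝓞 K)ˣ) (n : ℤ), (p : 𝓞 K) ∣ (u : 𝓞 K) - (n : 𝓞 K) →
      ∃ v : (𝓞 K)ˣ, u = v ^ p)
    {a b c : ℤ} (h : a ^ p + b ^ p = c ^ p) (hab : IsCoprime a b) (hc : c ≠ 0)
    (hpc : (p : ℤ) ∣ c) : False := by
  have hζ := IsCyclotomicExtension.zeta_spec p ℚ K
  have hpp : Prime (p : ℤ) := Nat.prime_iff_prime_int.mp hp.out
  have hp0 : p ≠ 0 := hp.out.ne_zero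
  have hpa : ¬ (p : ℤ) ∣ a := by
    intro hpa
    have hb : (p : ℤ) ∣ b ^ p := by
      have : b ^ p = c ^ p - a ^ p := by rw [← h]; ring
      rw [this]
      exact dvd_sub (dvd_pow hpc hp0) (dvd_pow hpa hp0)
    exact hpp.not_isUnit (hab.isUnit_of_dvd' hpa (hpp.dvd_of_dvd_pow hb))
  have hpb : ¬ (p : ℤ) ∣ b := by
    intro hpb
    have ha : (p : ℤ) ∣ a ^ p := by
      have : a ^ p = c ^ p - b ^ p := by rw [← h]; ring
      rw [this]
      exact dvd_sub (dvd_pow hpc hp0) (dvd_pow hpb hp0)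
    exact hpp.not_isUnit (hab.isUnit_of_dvd' (hpp.dvd_of_dvd_pow ha) hpb)
  refine no_solution hζ hodd kummer (c : 𝓞 K) (by exact_mod_cast hc) a b 1 ?_ ?_
    hab.intCast ?_ ?_
  · rwa [IsCyclotomicExtension.Rat.zeta_sub_one_dvd_intCast_iff' p hζ]
  · rwa [IsCyclotomicExtension.Rat.zeta_sub_one_dvd_intCast_iff' p hζ]
  · rwa [IsCyclotomicExtension.Rat.zeta_sub_one_dvd_intCast_iff' p hζ]
  · rw [Units.val_one, one_mul]
    exact_mod_cast congrArg (Int.cast : ℤ → 𝓞 K) h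

/-- **Case II** with the interface requested for the `S11` assembly. -/
theorem caseII {p : ℕ} [Fact p.Prime] (hp5 : 5 ≤ p) (K : Type) [Field K] [NumberField K]
    [IsCyclotomicExtension {p} ℚ K] [IsPrincipalIdealRing (𝓞 K)]
    (kummer : ∀ (u : (𝓞 K)ˣ) (n : ℤ), (p : 𝓞 K) ∣ (u : 𝓞 K) - (n : 𝓞 K) →
      ∃ v : (𝓞 K)ˣ, u = v ^ p)
    {a b c : ℤ} (h : a ^ p + b ^ p = c ^ p) (hab : IsCoprime a b) (hc : c ≠ 0)
    (hpc : (p : ℤ) ∣ c) : False :=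
  caseII_of_ne_two (by omega) K kummer h hab hc hpc

/-- Coprimality of `b` and `c` from that of `a` and `b` in a Fermat equation. -/
lemma isCoprime_of_eq {p : ℕ} (hp0 : p ≠ 0) {a b c : ℤ} (h : a ^ p + b ^ p = c ^ p)
    (hab : IsCoprime a b) : IsCoprime b c := by
  rw [← IsCoprime.pow_right_iff (Nat.pos_of_ne_zero hp0), ← h]
  obtain ⟨r, s, hrs⟩ : IsCoprime b (a ^ p) := hab.symm.pow_right
  refine ⟨r - s * b ^ (p - 1), s, ?_⟩
  have hbp : b ^ p = b ^ (p - 1) * b := by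
    rw [← pow_succ, Nat.sub_add_cancel (Nat.pos_of_ne_zero hp0)]
  rw [hbp]
  linear_combination hrs

/-- **Case II**, symmetric form: no coprime integers `a`, `b` with `a ^ p + b ^ p = c ^ p`,
`a * b * c ≠ 0` and `p ∣ a * b * c`. -/
theorem caseII' {p : ℕ} [hp : Fact p.Prime] (hodd : p ≠ 2) (K : Type) [Field K] [NumberField K]
    [IsCyclotomicExtension {p} ℚ K] [IsPrincipalIdealRing (𝓞 K)]
    (kummer : ∀ (u : (𝓞 K)ˣ) (n : ℤ), (p : 𝓞 K) ∣ (u : 𝓞 K) - (n : 𝓞 K) →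
      ∃ v : (𝓞 K)ˣ, u = v ^ p)
    {a b c : ℤ} (h : a ^ p + b ^ p = c ^ p) (hab : IsCoprime a b) (habc : a * b * c ≠ 0)
    (hpabc : (p : ℤ) ∣ a * b * c) : False := by
  have hpp : Prime (p : ℤ) := Nat.prime_iff_prime_int.mp hp.out
  have hp0 : p ≠ 0 := hp.out.ne_zero
  have hpodd : Odd p := hp.out.odd_of_ne_two hodd
  have ha0 : a ≠ 0 := fun h0 => habc (by rw [h0]; ring)
  have hb0 : b ≠ 0 := fun h0 => habc (by rw [h0]; ring)
  have hc0 : c ≠ 0 := fun h0 => habc (by rw [h0]; ring)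
  have hbc : IsCoprime b c := isCoprime_of_eq hp0 h hab
  have hac : IsCoprime a c := isCoprime_of_eq hp0 (by rw [add_comm]; exact h) hab.symm
  rcases hpp.dvd_or_dvd hpabc with hpab | hpc
  · rcases hpp.dvd_or_dvd hpab with hpa | hpb
    · -- `b ^ p + (-c) ^ p = (-a) ^ p`
      refine caseII_of_ne_two hodd K kummer (a := b) (b := -c) (c := -a) ?_ hbc.neg_right
        (neg_ne_zero.2 ha0) ((dvd_neg).2 hpa)
      rw [hpodd.neg_pow, hpodd.neg_pow, ← h]; ring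
    · -- `a ^ p + (-c) ^ p = (-b) ^ p`
      refine caseII_of_ne_two hodd K kummer (a := a) (b := -c) (c := -b) ?_ hac.neg_right
        (neg_ne_zero.2 hb0) ((dvd_neg).2 hpb)
      rw [hpodd.neg_pow, hpodd.neg_pow, ← h]; ring
  · exact caseII_of_ne_two hodd K kummer h hab hc0 hpc

end Fermat.Agent.S11.H81
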